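import Fermat.Agent.BrauerModular.Trace

/-!
# The trace subspace of a group algebra

Modulo the trace subspace every group element equals its `p`-regular part, and the classes of
`p`-regular elements form a basis of the quotient.
-/

set_option autoImplicit false

noncomputable section

namespace FA.BrauerModular

open Module

variable (p : ℕ) (G : Type*) [Group G]

/-- The conjugacy classes of `p`-regular elements. -/
abbrev RegClasses : Type _ :=
  {c : ConjClasses G // ∃ g, ¬ p ∣ orderOf g ∧ ConjClasses.mk g = c}

variable [hp : Fact p.Prime] [Finite G]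

/-- An exponent extracting the `p`-regular part. -/
def projExp : ℕ :=
  Nat.chineseRemainder ((Nat.Coprime.pow_left ((Nat.card G).factorization p)
    (Nat.coprime_ordCompl hp.out (Nat.card_pos (α := G)).ne')) : Nat.Coprime _ _) 0 1

lemma projExp_spec :
    projExp p G ≡ 0 [MOD p ^ (Nat.card G).factorization p] ∧
      projExp p G ≡ 1 [MOD Nat.card G / p ^ (Nat.card G).factorization p] :=
  (Nat.chineseRemainder ((Nat.Coprime.pow_left ((Nat.card G).factorization p)
    (Nat.coprime_ordCompl hp.out (Nat.card_pos (α := G)).ne')) : Nat.Coprime _ _) 0 1).2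

variable {G}

lemma not_dvd_orderOf_pow (g : G) : ¬ p ∣ orderOf (g ^ projExp p G) := by
  intro h
  have h1 : orderOf (g ^ projExp p G) ∣ Nat.card G / p ^ (Nat.card G).factorization p := by
    refine orderOf_dvd_of_pow_eq_one ?_
    rw [← pow_mul]
    obtain ⟨c, hc⟩ := Nat.modEq_zero_iff_dvd.1 (projExp_spec p G).1
    rw [hc, mul_right_comm, Nat.mul_div_cancel' (Nat.ordProj_dvd _ _), pow_mul, pow_card_eq_one',
      one_pow]
  exact Nat.not_dvd_ordCompl hp.out Nat.card_pos.ne' (h.trans h1)

lemma pow_projExp_eq_self {g : G} (hg : ¬ p ∣ orderOf g) : g ^ projExp p G = g := by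
  have h1 : orderOf g ∣ Nat.card G / p ^ (Nat.card G).factorization p := by
    have hcop : Nat.Coprime (orderOf g) (p ^ (Nat.card G).factorization p) :=
      ((hp.out.coprime_iff_not_dvd).2 hg).symm.pow_right _
    refine hcop.dvd_of_dvd_mul_left ?_
    rw [Nat.mul_div_cancel' (Nat.ordProj_dvd _ _)]
    exact orderOf_dvd_natCard g
  conv_rhs => rw [← pow_one g]
  exact pow_eq_pow_iff_modEq.2 ((projExp_spec p G).2.of_dvd h1)

/-- The class of the `p`-regular part. -/
def regClass (g : G) : RegClasses p G :=
  ⟨ConjClasses.mk (g ^ projExp p G), _, not_dvd_orderOf_pow p g, rfl⟩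

variable {k : Type*} [Field k] [CharP k p]

/-- The coefficient of every `p`-regular class. -/
def regMap : MonoidAlgebra k G →ₗ[k] (RegClasses p G → k) :=
  haveI := Classical.decEq (RegClasses p G)
  Finsupp.linearCombination k (fun g => Pi.single (regClass p g) (1 : k)) ∘ₗ
    ({ toFun := fun x => x.coeff
       map_add' := fun x y => MonoidAlgebra.coeff_add x y
       map_smul' := fun t x => MonoidAlgebra.coeff_smul t x } : MonoidAlgebra k G →ₗ[k] G →₀ k)

omit [CharP k p] in
lemma regMap_single [DecidableEq (RegClasses p G)] (g : G) (t : k) :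
    regMap p (MonoidAlgebra.single g t) = t • Pi.single (regClass p g) 1 := by
  simp only [regMap, LinearMap.comp_apply, LinearMap.coe_mk, AddHom.coe_mk,
    MonoidAlgebra.coeff_single, Finsupp.linearCombination_single]
  congr!

omit [CharP k p] in
lemma regMap_commSpan {x : MonoidAlgebra k G} (hx : x ∈ commSpan k (MonoidAlgebra k G)) :
    regMap p x = 0 := by
  classical
  induction hx using Submodule.span_induction with
  | mem x hx =>
    obtain ⟨u, v, rfl⟩ := hx
    rw [map_sub, sub_eq_zero]
    induction u using MonoidAlgebra.induction_linear with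
    | zero => simp
    | add a b ha hb => rw [add_mul, mul_add, map_add, map_add, ha, hb]
    | single g s =>
      induction v using MonoidAlgebra.induction_linear with
      | zero => simp
      | add a b ha hb => rw [mul_add, add_mul, map_add, map_add, ha, hb]
      | single h t =>
        rw [MonoidAlgebra.single_mul_single, MonoidAlgebra.single_mul_single, regMap_single,
          regMap_single, mul_comm t s]
        congr 2
        refine Subtype.ext (ConjClasses.mk_eq_mk_iff_isConj.2 (isConj_iff.2 ⟨g⁻¹, ?_⟩))
        rw [← conj_pow]
        congr 1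
        group
  | zero => simp
  | add x y _ _ hx hy => rw [map_add, hx, hy, add_zero]
  | smul t x _ hx => rw [map_smul, hx, smul_zero]

lemma regMap_pow {n : ℕ}
    (hn : p ^ n ≡ 1 [MOD Nat.card G / p ^ (Nat.card G).factorization p]) (x : MonoidAlgebra k G) :
    regMap p (x ^ p ^ n) = (regMap p x) ^ p ^ n := by
  classical
  have hne : p ^ n ≠ 0 := pow_ne_zero _ hp.out.ne_zero
  induction x using MonoidAlgebra.induction_linear with
  | zero => rw [zero_pow hne, map_zero, zero_pow hne]
  | add a b ha hb =>
    have h := regMap_commSpan p (add_pow_pow_sub_mem (k := k) p a b n)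
    rw [map_sub, map_sub, ha, hb, sub_sub, sub_eq_zero] at h
    rw [h, map_add]
    ext c
    simp only [Pi.add_apply, Pi.pow_apply, add_pow_char_pow]
  | single g t =>
    rw [MonoidAlgebra.single_pow, regMap_single, regMap_single]
    have hreg : regClass p (g ^ p ^ n) = regClass p g := by
      refine Subtype.ext (congrArg ConjClasses.mk ?_)
      rw [← pow_mul]
      refine pow_eq_pow_iff_modEq.2 (Nat.ModEq.of_dvd (orderOf_dvd_natCard g) ?_)
      rw [← Nat.mul_div_cancel' (Nat.ordProj_dvd (Nat.card G) p)]
      refine (Nat.modEq_and_modEq_iff_modEq_mul ?_).1 ⟨?_, ?_⟩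
      · exact Nat.Coprime.pow_left _ (Nat.coprime_ordCompl hp.out Nat.card_pos.ne')
      · exact (by simpa using (projExp_spec p G).1.mul_left (p ^ n) :
          p ^ n * projExp p G ≡ 0 [MOD p ^ (Nat.card G).factorization p]).trans
          (projExp_spec p G).1.symm
      · simpa using hn.mul_right (projExp p G)
    rw [hreg]
    ext c
    by_cases h : c = regClass p g
    · subst h; simp
    · simp [Pi.single_eq_of_ne h, zero_pow hne]

lemma exists_good_exponent (n₀ : ℕ) : ∃ n, n₀ ≤ n ∧
    p ^ n ≡ 1 [MOD Nat.card G / p ^ (Nat.card G).factorization p] := by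
  set m := Nat.card G / p ^ (Nat.card G).factorization p
  have hcop : Nat.Coprime p m := Nat.coprime_ordCompl hp.out Nat.card_pos.ne'
  have hm : 0 < m := Nat.ordCompl_pos p Nat.card_pos.ne'
  refine ⟨m.totient * n₀, Nat.le_mul_of_pos_left _ (Nat.totient_pos.2 hm), ?_⟩
  simpa [pow_mul] using (Nat.ModEq.pow_totient hcop).pow n₀

lemma single_sub_mem_traceSpace (g : G) :
    MonoidAlgebra.single g (1 : k) - MonoidAlgebra.single (g ^ projExp p G) 1 ∈
      traceSpace (k := k) p := by
  refine mem_of_isNilpotent p ⟨p ^ (Nat.card G).factorization p, ?_⟩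
  have : CharP (MonoidAlgebra k G) p :=
    charP_of_injective_algebraMap (algebraMap k (MonoidAlgebra k G)).injective p
  have hcomm : Commute (MonoidAlgebra.single g (1 : k))
      (MonoidAlgebra.single (g ^ projExp p G) 1) := by
    rw [commute_iff_eq, MonoidAlgebra.single_mul_single, MonoidAlgebra.single_mul_single,
      ← pow_succ', ← pow_succ]
  rw [sub_pow_char_pow_of_commute (p := p) (h := hcomm), MonoidAlgebra.single_pow,
    MonoidAlgebra.single_pow, one_pow, sub_eq_zero]
  congr 1
  rw [← pow_mul, mul_comm, pow_eq_pow_iff_modEq]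
  refine Nat.ModEq.of_dvd (orderOf_dvd_natCard g) ?_
  have key := (projExp_spec p G).2.symm.mul_left' (p ^ (Nat.card G).factorization p)
  rwa [Nat.mul_div_cancel' (Nat.ordProj_dvd _ _), mul_one] at key

/-- The kernel of the class map is the trace subspace. -/
lemma ker_regMap : LinearMap.ker (regMap (k := k) (G := G) p) = traceSpace p := by
  classical
  refine le_antisymm (fun x hx => ?_) fun x hx => ?_
  · choose rep hrep using fun c : RegClasses p G => c.2
    let ψ : (RegClasses p G → k) →ₗ[k] MonoidAlgebra k G :=
      haveI := Fintype.ofFinite (RegClasses p G)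
      ∑ c, (LinearMap.proj c).smulRight (MonoidAlgebra.single (rep c) (1 : k))
    have key : ∀ y, y - ψ (regMap p y) ∈ traceSpace (k := k) p := by
      intro y
      induction y using MonoidAlgebra.induction_linear with
      | zero => simp
      | add a b ha hb =>
        rw [map_add, map_add, add_sub_add_comm]
        exact add_mem ha hb
      | single g t =>
        have := Fintype.ofFinite (RegClasses p G)
        rw [regMap_single, map_smul]
        have hψ : ψ (Pi.single (regClass p g) 1) = MonoidAlgebra.single (rep (regClass p g)) 1 := by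
          simp [ψ, LinearMap.sum_apply, Pi.single_apply]
        rw [hψ, show MonoidAlgebra.single g t = t • MonoidAlgebra.single g (1 : k) by simp,
          ← smul_sub]
        refine Submodule.smul_mem _ t ?_
        set h := rep (regClass p g)
        obtain ⟨c, hc⟩ := isConj_iff.1 (ConjClasses.mk_eq_mk_iff_isConj.1 (hrep (regClass p g)).2)
        have hK : MonoidAlgebra.single (g ^ projExp p G) (1 : k) - MonoidAlgebra.single h 1 ∈
            traceSpace (k := k) p := by
          refine commSpan_le p ?_
          have := commutator_mem (k := k) (MonoidAlgebra.single c (1 : k))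
            (MonoidAlgebra.single (h * c⁻¹) 1)
          rw [MonoidAlgebra.single_mul_single, MonoidAlgebra.single_mul_single, ← mul_assoc, hc,
            inv_mul_cancel_right, mul_one] at this
          exact this
        simpa using add_mem (single_sub_mem_traceSpace p g) hK
    have := key x
    rwa [LinearMap.mem_ker.1 hx, map_zero, sub_zero] at this
  · obtain ⟨n₀, hn₀⟩ := hx
    obtain ⟨n, hn, hmod⟩ := exists_good_exponent (G := G) p n₀
    have hmem : x ^ p ^ n ∈ commSpan k (MonoidAlgebra k G) := by
      rw [← Nat.add_sub_cancel' hn, pow_add, pow_mul]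
      exact pow_pow_mem p hn₀ _
    have h := regMap_commSpan p hmem
    rw [regMap_pow p hmod] at h
    ext c
    exact pow_eq_zero_iff (pow_ne_zero _ hp.out.ne_zero) |>.1 (congrFun h c)

omit [CharP k p] in
lemma regMap_surjective : Function.Surjective (regMap (k := k) (G := G) p) := by
  classical
  have := Fintype.ofFinite (RegClasses p G)
  choose rep hrep using fun c : RegClasses p G => c.2
  intro f
  refine ⟨∑ c, MonoidAlgebra.single (rep c) (f c), ?_⟩
  have hc : ∀ c, regClass p (rep c) = c := fun c => Subtype.ext (by
    show ConjClasses.mk (rep c ^ projExp p G) = c.1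
    rw [pow_projExp_eq_self p (hrep c).1, (hrep c).2])
  simp only [map_sum, regMap_single, hc]
  ext c
  simp [Finset.sum_apply, Pi.single_apply]

/-- The trace subspace has the number of `p`-regular classes as codimension. -/
theorem finrank_quotient_traceSpace :
    finrank k (MonoidAlgebra k G ⧸ traceSpace (k := k) (A := MonoidAlgebra k G) p) =
      Nat.card (RegClasses p G) := by
  have := Fintype.ofFinite (RegClasses p G)
  rw [← ker_regMap p, (LinearMap.quotKerEquivOfSurjective _ (regMap_surjective p)).finrank_eq,
    Module.finrank_pi, Nat.card_eq_fintype_card]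

end FA.BrauerModular
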