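import Fermat.Agent.BrauerModular.Trace

/-!
# Matrix blocks and irreducible representations

A finite dimensional algebra over an algebraically closed field maps onto a product of matrix
algebras with nilpotent kernel. The trace subspace is the kernel of the block traces, and the
irreducible representations of a group are the column representations of the blocks.
-/

set_option autoImplicit false

noncomputable section

namespace FA.BrauerModular

open Module

variable {k : Type*} [Field k]

/-- The product of the matrix blocks. -/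
abbrev Blocks (k : Type*) [Field k] {r : ℕ} (d : Fin r → ℕ) :=
  (i : Fin r) → Matrix (Fin (d i)) (Fin (d i)) k

/-- Blocks with nilpotent kernel exist. -/
theorem exists_blocks [IsAlgClosed k] (A : Type*) [Ring A] [Algebra k A] [FiniteDimensional k A] :
    ∃ (r : ℕ) (d : Fin r → ℕ), (∀ i, NeZero (d i)) ∧
      ∃ π : A →ₐ[k] Blocks k d, Function.Surjective π ∧ ∀ x, π x = 0 → IsNilpotent x := by
  have : IsArtinianRing A := IsArtinianRing.of_finite k A
  have : FiniteDimensional k (A ⧸ Ring.jacobson A) :=
    Module.Finite.of_surjective (Ideal.Quotient.mkₐ k (Ring.jacobson A)).toLinearMap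
      Ideal.Quotient.mk_surjective
  obtain ⟨r, d, hd, ⟨e⟩⟩ :=
    IsSemisimpleRing.exists_algEquiv_pi_matrix_of_isAlgClosed k (A ⧸ Ring.jacobson A)
  refine ⟨r, d, hd, e.toAlgHom.comp (Ideal.Quotient.mkₐ k (Ring.jacobson A)),
    e.surjective.comp Ideal.Quotient.mk_surjective, fun x hx => ?_⟩
  have hxJ : x ∈ Ring.jacobson A := Ideal.Quotient.eq_zero_iff_mem.1 (e.injective (by simpa using hx))
  obtain ⟨n, hn⟩ := IsSemiprimaryRing.isNilpotent (R := A)
  exact ⟨n, by simpa [hn] using Ideal.pow_mem_pow hxJ n⟩

variable {r : ℕ} {d : Fin r → ℕ}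

lemma single_mem_commSpan_matrix {n : ℕ} (a : Fin n) (x : Matrix (Fin n) (Fin n) k) :
    x - Matrix.single a a x.trace ∈ commSpan k (Matrix (Fin n) (Fin n) k) := by
  have hsum : Matrix.single a a x.trace = ∑ i, ∑ j, (if i = j then Matrix.single a a (x i j) else 0) := by
    simp only [Finset.sum_ite_eq, Finset.mem_univ, if_true]
    rw [Matrix.trace]
    exact map_sum (Matrix.singleAddMonoidHom a a) _ _
  rw [hsum]
  nth_rewrite 1 [Matrix.matrix_eq_sum_single x]
  simp only [← Finset.sum_sub_distrib]
  refine Submodule.sum_mem _ fun i _ => Submodule.sum_mem _ fun j _ => ?_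
  split
  · rename_i h
    subst h
    have := commutator_mem (k := k) (Matrix.single i a (x i i)) (Matrix.single a i (1 : k))
    simpa [Matrix.single_mul_single_same] using this
  · rename_i h
    have := commutator_mem (k := k) (Matrix.single i i (x i j)) (Matrix.single i j (1 : k))
    rw [Matrix.single_mul_single_same, Matrix.single_mul_single_of_ne _ _ _ _ (Ne.symm h),
      mul_one, sub_zero] at this
    simpa using this

lemma trace_commSpan {n : ℕ} {x : Matrix (Fin n) (Fin n) k}
    (hx : x ∈ commSpan k (Matrix (Fin n) (Fin n) k)) : x.trace = 0 := by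
  induction hx using Submodule.span_induction with
  | mem x hx =>
    obtain ⟨u, v, rfl⟩ := hx
    rw [Matrix.trace_sub, Matrix.trace_mul_comm, sub_self]
  | zero => simp
  | add x y _ _ hx hy => rw [Matrix.trace_add, hx, hy, add_zero]
  | smul t x _ hx => rw [Matrix.trace_smul, hx, smul_zero]

lemma mem_commSpan_blocks {x : Blocks k d} (hd : ∀ i, NeZero (d i)) :
    x ∈ commSpan k (Blocks k d) ↔ ∀ i, (x i).trace = 0 := by
  classical
  refine ⟨fun hx i => trace_commSpan (map_commSpan (Pi.evalAlgHom k _ i) hx), fun h => ?_⟩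
  rw [← Finset.univ_sum_single x]
  refine Submodule.sum_mem _ fun i _ => ?_
  have := hd i
  have hxi : x i ∈ commSpan k (Matrix (Fin (d i)) (Fin (d i)) k) := by
    simpa [h i] using single_mem_commSpan_matrix 0 (x i)
  generalize x i = y at hxi
  induction hxi using Submodule.span_induction with
  | mem y hy =>
    obtain ⟨u, v, rfl⟩ := hy
    rw [Pi.single_sub, Pi.single_mul, Pi.single_mul]
    exact commutator_mem _ _
  | zero => simp
  | add y z _ _ hy hz => rw [Pi.single_add]; exact add_mem hy hz
  | smul t y _ hy => rw [Pi.single_smul]; exact Submodule.smul_mem _ t hy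

variable (p : ℕ) [hp : Fact p.Prime] [CharP k p]

/-- On blocks the trace subspace is cut out by the traces. -/
lemma mem_traceSpace_blocks {x : Blocks k d} (hd : ∀ i, NeZero (d i)) :
    x ∈ traceSpace (k := k) p ↔ ∀ i, (x i).trace = 0 := by
  refine ⟨fun ⟨n, hn⟩ i => ?_, fun h => commSpan_le p ((mem_commSpan_blocks hd).2 h)⟩
  have := hd i
  have hq := (mem_commSpan_blocks hd).1 hn i
  set t := (x i).trace
  have h1 := pow_pow_mem p (single_mem_commSpan_matrix 0 (x i)) n
  have h2 := add_pow_pow_sub_mem (k := k) p (x i - Matrix.single 0 0 t) (Matrix.single 0 0 t) n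
  rw [sub_add_cancel] at h2
  have h3 := trace_commSpan (add_mem h2 h1)
  rw [show (x i) ^ p ^ n - (x i - Matrix.single 0 0 t) ^ p ^ n - Matrix.single 0 0 t ^ p ^ n +
    (x i - Matrix.single 0 0 t) ^ p ^ n = (x i) ^ p ^ n - Matrix.single 0 0 t ^ p ^ n by abel,
    Matrix.trace_sub, show (x i ^ p ^ n).trace = 0 from hq, zero_sub, neg_eq_zero] at h3
  have hpow : ∀ m, (Matrix.single 0 0 t : Matrix (Fin (d i)) (Fin (d i)) k) ^ (m + 1) =
      Matrix.single 0 0 (t ^ (m + 1)) :=
    fun m => by
      induction m with
      | zero => simp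
      | succ m ih => rw [pow_succ _ (m + 1), ih, Matrix.single_mul_single_same, pow_succ t (m + 1)]
  obtain ⟨m, hm⟩ : ∃ m, p ^ n = m + 1 :=
    ⟨p ^ n - 1, by have := hp.out.pos; have : 0 < p ^ n := pow_pos this n; omega⟩
  rw [hm, hpow, Matrix.trace_single_eq_same] at h3
  exact (pow_eq_zero_iff (by omega)).1 h3

/-- The number of blocks is the codimension of the trace subspace. -/
theorem finrank_quotient_traceSpace_eq {A : Type*} [Ring A] [Algebra k A] (hd : ∀ i, NeZero (d i))
    {π : A →ₐ[k] Blocks k d} (hπ : Function.Surjective π) (hker : ∀ x, π x = 0 → IsNilpotent x) :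
    finrank k (A ⧸ traceSpace (k := k) (A := A) p) = r := by
  classical
  let τ : A →ₗ[k] (Fin r → k) := LinearMap.pi fun i =>
    Matrix.traceLinearMap (Fin (d i)) k k ∘ₗ LinearMap.proj i ∘ₗ π.toLinearMap
  have hτ : ∀ x i, τ x i = (π x i).trace := fun _ _ => rfl
  have hk : LinearMap.ker τ = traceSpace p := by
    ext x
    rw [mem_traceSpace_iff_map p hπ hker, mem_traceSpace_blocks p hd, LinearMap.mem_ker, funext_iff]
    simp [hτ]
  have hs : Function.Surjective τ := fun f => by
    obtain ⟨x, hx⟩ := hπ fun i => have := hd i; Matrix.single 0 0 (f i)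
    refine ⟨x, funext fun i => ?_⟩
    have := hd i
    rw [hτ, hx, Matrix.trace_single_eq_same]
  rw [← hk, (LinearMap.quotKerEquivOfSurjective τ hs).finrank_eq]
  simp

section Representations

variable {G : Type*} [Group G] {π : MonoidAlgebra k G →ₐ[k] Blocks k d}

omit hp [CharP k p]

/-- The column representation of a block. -/
def blockRep (π : MonoidAlgebra k G →ₐ[k] Blocks k d) (i : Fin r) :
    Representation k G (Fin (d i) → k) :=
  ((Matrix.toLinAlgEquiv'.toAlgHom.comp ((Pi.evalAlgHom k _ i).comp π)).toMonoidHom).comp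
    (MonoidAlgebra.of k G)

lemma blockRep_asAlgebraHom (i : Fin r) (a : MonoidAlgebra k G) (v : Fin (d i) → k) :
    (blockRep π i).asAlgebraHom a v = (π a i).mulVec v := by
  induction a using MonoidAlgebra.induction_linear with
  | zero => simp
  | add a b ha hb =>
    rw [map_add, LinearMap.add_apply, ha, hb, map_add, Pi.add_apply, Matrix.add_mulVec]
  | single g t =>
    rw [show MonoidAlgebra.single g t = t • MonoidAlgebra.of k G g by simp, map_smul, map_smul,
      Representation.asAlgebraHom_of, LinearMap.smul_apply, Pi.smul_apply, Matrix.smul_mulVec]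
    rfl

/-- Subrepresentations are stable under the group algebra. -/
lemma asAlgebraHom_mem {V : Type*} [AddCommGroup V] [Module k V] {ρ : Representation k G V}
    (W : Subrepresentation ρ) (a : MonoidAlgebra k G) {v : V} (hv : v ∈ W.toSubmodule) :
    ρ.asAlgebraHom a v ∈ W.toSubmodule := by
  induction a using MonoidAlgebra.induction_linear with
  | zero => simp
  | add a b ha hb => rw [map_add, LinearMap.add_apply]; exact add_mem ha hb
  | single g t =>
    rw [Representation.asAlgebraHom_single, LinearMap.smul_apply]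
    exact W.toSubmodule.smul_mem t (W.apply_mem_toSubmodule g hv)

lemma blockRep_irreducible (hπ : Function.Surjective π) (i : Fin r) [NeZero (d i)] :
    (blockRep π i).IsIrreducible := by
  classical
  have : Nontrivial (Subrepresentation (blockRep π i)) := by
    refine ⟨⊥, ⊤, fun h => ?_⟩
    have h' : (⊥ : Submodule k (Fin (d i) → k)) = ⊤ := congrArg Subrepresentation.toSubmodule h
    exact bot_ne_top h'
  refine ⟨fun W => ?_⟩
  by_cases hW : W = ⊥
  · exact Or.inl hW
  refine Or.inr ?_
  obtain ⟨v, hv, hv0⟩ : ∃ v ∈ W.toSubmodule, v ≠ 0 := by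
    by_contra h
    push Not at h
    exact hW (le_antisymm (fun v hv => (h v hv).symm ▸ (⊥ : Subrepresentation (blockRep π i)).toSubmodule.zero_mem) bot_le)
  obtain ⟨j, hj⟩ := Function.ne_iff.1 hv0
  rw [Pi.zero_apply] at hj
  refine le_antisymm le_top fun w _ => ?_
  obtain ⟨a, ha⟩ := hπ (Pi.single i (Matrix.vecMulVec w (Pi.single j (v j)⁻¹)))
  have := asAlgebraHom_mem W a hv
  rw [blockRep_asAlgebraHom, ha, Pi.single_eq_same, Matrix.vecMulVec_mulVec] at this
  show w ∈ W.toSubmodule
  simpa [single_dotProduct, hj] using this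

lemma blockRep_not_equiv (hπ : Function.Surjective π) {i j : Fin r} [NeZero (d i)] (hij : i ≠ j) :
    IsEmpty ((blockRep π i).Equiv (blockRep π j)) := by
  classical
  refine ⟨fun φ => ?_⟩
  obtain ⟨a, ha⟩ := hπ (Pi.single i 1)
  have hlin : ∀ (b : MonoidAlgebra k G) v, φ ((blockRep π i).asAlgebraHom b v) =
      (blockRep π j).asAlgebraHom b (φ v) := fun b v => by
    induction b using MonoidAlgebra.induction_linear with
    | zero => simp
    | add b c hb hc => rw [map_add, map_add, LinearMap.add_apply, map_add, hb, hc]; rfl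
    | single g t =>
      rw [Representation.asAlgebraHom_single, Representation.asAlgebraHom_single,
        LinearMap.smul_apply, map_smul, LinearMap.smul_apply]
      congr 1
      exact LinearMap.congr_fun (φ.isIntertwining' g) v
  have h := hlin a (Pi.single 0 1)
  rw [blockRep_asAlgebraHom, blockRep_asAlgebraHom, ha, Pi.single_eq_same,
    Pi.single_eq_of_ne hij.symm, Matrix.one_mulVec, Matrix.zero_mulVec] at h
  have h' := φ.toLinearEquiv.injective (h.trans (map_zero φ.toLinearEquiv).symm)
  simpa using congrFun h' 0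

/-- Every irreducible representation is one of the column representations. -/
lemma exists_equiv_blockRep (hd : ∀ i, NeZero (d i)) (hπ : Function.Surjective π)
    (hker : ∀ x, π x = 0 → IsNilpotent x) {V : Type*} [AddCommGroup V] [Module k V]
    (ρ : Representation k G V) [ρ.IsIrreducible] :
    ∃ i, Nonempty ((blockRep π i).Equiv ρ) := by
  classical
  set R := ρ.asAlgebraHom
  have hzero : ∀ x, π x = 0 → R x = 0 := by
    intro x hx
    ext v
    let W : Subrepresentation ρ :=
      { toSubmodule := (LinearMap.ker π.toLinearMap).map (R.toLinearMap.flip v)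
        apply_mem_toSubmodule := fun g w hw => by
          obtain ⟨y, hy, rfl⟩ := Submodule.mem_map.1 hw
          refine Submodule.mem_map.2 ⟨MonoidAlgebra.of k G g * y, ?_, ?_⟩
          · rw [LinearMap.mem_ker] at hy ⊢
            show π _ = 0
            rw [map_mul, show π y = 0 from hy, mul_zero]
          · show R (MonoidAlgebra.of k G g * y) v = ρ g (R y v)
            rw [map_mul, Module.End.mul_apply, Representation.asAlgebraHom_of] }
    rcases eq_or_ne v 0 with rfl | hv
    · simp
    rcases IsSimpleOrder.eq_bot_or_eq_top W with h | h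
    · have hm : R x v ∈ W := Submodule.mem_map.2 ⟨x, hx, rfl⟩
      rw [h] at hm
      exact hm
    · exfalso
      have hm : v ∈ W := by rw [h]; trivial
      obtain ⟨y, hy, hyv⟩ := Submodule.mem_map.1 hm
      obtain ⟨u, hu⟩ := ((hker y hy).map R).isUnit_one_sub
      refine hv ?_
      have h1 : (u : Module.End k V) v = 0 := by
        rw [hu, LinearMap.sub_apply, Module.End.one_apply, sub_eq_zero]
        exact hyv.symm
      simpa [← Module.End.mul_apply] using congrArg (u⁻¹ : (Module.End k V)ˣ).val h1
  have hfac : ∀ x y, π x = π y → R x = R y := fun x y h => sub_eq_zero.1 (by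
    rw [← map_sub]; exact hzero _ (by rw [map_sub, h, sub_self]))
  obtain ⟨σ, hσ⟩ := LinearMap.exists_rightInverse_of_surjective π.toLinearMap
    (LinearMap.range_eq_top.2 hπ)
  replace hσ : ∀ M, π (σ M) = M := fun M => LinearMap.congr_fun hσ M
  let L : Blocks k d →ₗ[k] Module.End k V := R.toLinearMap ∘ₗ σ
  have hL : ∀ M N, L (M * N) = L M * L N := fun M N => by
    show R (σ (M * N)) = R (σ M) * R (σ N)
    rw [← map_mul]
    exact hfac _ _ (by rw [hσ, map_mul π, hσ, hσ])
  have hL1 : L 1 = 1 := by
    show R (σ 1) = 1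
    rw [← map_one R]
    exact hfac _ _ (by rw [hσ, map_one])
  have hV : Nontrivial V := by
    by_contra h
    rw [not_nontrivial_iff_subsingleton] at h
    obtain ⟨a, b, hab⟩ := exists_pair_ne (Subrepresentation ρ)
    exact hab (Subrepresentation.toSubmodule_injective (Subsingleton.elim _ _))
  obtain ⟨i, v₀, hv₀, hfix⟩ : ∃ i, ∃ v₀ : V, v₀ ≠ 0 ∧
      L (Pi.single i (have := hd i; Matrix.single 0 0 1)) v₀ = v₀ := by
    by_contra h
    push Not at h
    obtain ⟨v, hv⟩ := exists_ne (0 : V)
    refine hv ?_
    have h1 : (1 : Blocks k d) =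
        ∑ i, ∑ j : Fin (d i), Pi.single i (Matrix.single j j (1 : k)) := by
      have : ∀ i, (∑ j : Fin (d i), Pi.single i (Matrix.single j j (1 : k)) : Blocks k d) =
          Pi.single i 1 := fun i => by
        show ∑ j : Fin (d i), AddMonoidHom.single (fun i => Matrix (Fin (d i)) (Fin (d i)) k) i
          (Matrix.single j j (1 : k)) = _
        rw [← map_sum (AddMonoidHom.single (fun i => Matrix (Fin (d i)) (Fin (d i)) k) i),
          Matrix.sum_single_eq_diagonal, Matrix.diagonal_one]
        rfl
      simp only [this]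
      exact (Finset.univ_sum_single (1 : Blocks k d)).symm
    rw [← Module.End.one_apply (R := k) v, ← hL1, h1, map_sum, LinearMap.sum_apply]
    refine Finset.sum_eq_zero fun i _ => ?_
    rw [map_sum, LinearMap.sum_apply]
    refine Finset.sum_eq_zero fun j _ => ?_
    have := hd i
    set E : Blocks k d := Pi.single i (Matrix.single 0 0 1)
    have hE0 : L E = 0 := by
      ext w
      by_contra hw
      refine h i (L E w) hw ?_
      rw [← Module.End.mul_apply, ← hL, ← Pi.single_mul, Matrix.single_mul_single_same, mul_one]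
    have hjj : (Pi.single i (Matrix.single j j (1 : k)) : Blocks k d) =
        Pi.single i (Matrix.single j 0 1) * E * Pi.single i (Matrix.single 0 j 1) := by
      rw [← Pi.single_mul, ← Pi.single_mul, Matrix.single_mul_single_same,
        Matrix.single_mul_single_same, mul_one, mul_one]
    rw [hjj, hL, hL, hE0, mul_zero, zero_mul, LinearMap.zero_apply]
  have := hd i
  let col : (Fin (d i) → k) →ₗ[k] Blocks k d :=
    { toFun := fun w => Pi.single i (Matrix.vecMulVec w (Pi.single 0 1))
      map_add' := fun v w => by rw [Matrix.add_vecMulVec, Pi.single_add]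
      map_smul' := fun t w => by rw [Matrix.smul_vecMulVec, Pi.single_smul]; rfl }
  let φ : (Fin (d i) → k) →ₗ[k] V := L.flip v₀ ∘ₗ col
  have hφ : ∀ g, φ ∘ₗ blockRep π i g = ρ g ∘ₗ φ := fun g => LinearMap.ext fun w => by
    show L (col (blockRep π i g w)) v₀ = ρ g (L (col w) v₀)
    have hR : ρ g = L (π (MonoidAlgebra.of k G g)) := by
      rw [← Representation.asAlgebraHom_of]
      exact hfac _ _ (hσ _).symm
    rw [hR, ← Module.End.mul_apply, ← hL]
    congr 2
    ext j : 1
    rcases eq_or_ne j i with rfl | hj
    · simp [col, Pi.mul_apply, Matrix.mul_vecMulVec, blockRep]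
    · simp [col, Pi.mul_apply, Pi.single_eq_of_ne hj]
  let f : (blockRep π i).IntertwiningMap ρ := ⟨φ, hφ⟩
  have := blockRep_irreducible hπ i
  rcases Representation.IsIrreducible.bijective_or_eq_zero f with h | h
  · exact ⟨i, ⟨Representation.IntertwiningMap.ofBijective f h⟩⟩
  · exfalso
    refine hv₀ ?_
    have h1 : φ (Pi.single 0 1) = 0 := by
      show f (Pi.single 0 1) = 0
      rw [h]; rfl
    rw [← hfix]
    convert h1 using 2
    show _ = L (col _) v₀
    simp [col, Matrix.single_eq_single_vecMulVec_single]

end Representations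

end FA.BrauerModular
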