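import Mathlib

/-!
# The trace subspace of an algebra in characteristic `p`

Modulo the span of commutators the `p`-th power map is additive, so the elements some
`p ^ n`-th power of which is a combination of commutators form a subspace.
-/

set_option autoImplicit false

noncomputable section

namespace FA.BrauerModular

open Polynomial

variable {k A : Type*} [Field k] [Ring A] [Algebra k A]

variable (k A) in
/-- The span of the commutators. -/
def commSpan : Submodule k A := Submodule.span k {x | ∃ u v : A, u * v - v * u = x}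

lemma commutator_mem (u v : A) : u * v - v * u ∈ commSpan k A :=
  Submodule.subset_span ⟨u, v, rfl⟩

lemma coeff_commutator_mem (f g : A[X]) (n : ℕ) : (f * g - g * f).coeff n ∈ commSpan k A := by
  rw [coeff_sub, coeff_mul, coeff_mul, ← Finset.Nat.sum_antidiagonal_swap, ← Finset.sum_sub_distrib]
  exact Submodule.sum_mem _ fun x _ => commutator_mem _ _

lemma map_commSpan {B : Type*} [Ring B] [Algebra k B] (f : A →ₐ[k] B) {x : A}
    (hx : x ∈ commSpan k A) : f x ∈ commSpan k B := by
  induction hx using Submodule.span_induction with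
  | mem x hx =>
    obtain ⟨u, v, rfl⟩ := hx
    rw [map_sub, map_mul, map_mul]
    exact commutator_mem _ _
  | zero => simp
  | add x y _ _ hx hy => rw [map_add]; exact add_mem hx hy
  | smul t x _ hx => rw [map_smul]; exact Submodule.smul_mem _ t hx

lemma exists_of_commSpan {B : Type*} [Ring B] [Algebra k B] {f : A →ₐ[k] B}
    (hf : Function.Surjective f) {y : B} (hy : y ∈ commSpan k B) : ∃ x ∈ commSpan k A, f x = y := by
  induction hy using Submodule.span_induction with
  | mem y hy =>
    obtain ⟨u, v, rfl⟩ := hy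
    obtain ⟨u, rfl⟩ := hf u
    obtain ⟨v, rfl⟩ := hf v
    exact ⟨_, commutator_mem u v, by rw [map_sub, map_mul, map_mul]⟩
  | zero => exact ⟨0, zero_mem _, map_zero f⟩
  | add x y _ _ hx hy =>
    obtain ⟨a, ha, rfl⟩ := hx
    obtain ⟨b, hb, rfl⟩ := hy
    exact ⟨a + b, add_mem ha hb, map_add f a b⟩
  | smul t x _ hx =>
    obtain ⟨a, ha, rfl⟩ := hx
    exact ⟨t • a, Submodule.smul_mem _ t ha, map_smul f t a⟩

variable (p : ℕ) [hp : Fact p.Prime] [CharP k p]

variable (k) in
include k in
omit hp in
lemma natCast_eq_zero : (p : A) = 0 := by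
  rw [← map_natCast (algebraMap k A), CharP.cast_eq_zero, map_zero]

/-- The `p`-th power is additive modulo commutators. -/
lemma add_pow_sub_mem (a b : A) : (a + b) ^ p - a ^ p - b ^ p ∈ commSpan k A := by
  set q : A[X] := C a * X + C b
  have hd : ∀ n, derivative (q ^ n) = ∑ i ∈ Finset.range n, q ^ i * C a * q ^ (n - 1 - i) := by
    intro n
    induction n with
    | zero => simp
    | succ n ih =>
      have hq : derivative q = C a := by simp [q]
      rw [pow_succ, derivative_mul, ih, hq, Finset.sum_mul, Finset.sum_range_succ]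
      congr 1
      · refine Finset.sum_congr rfl fun i hi => ?_
        have := Finset.mem_range.1 hi
        rw [mul_assoc _ (q ^ _), ← pow_succ, show n - 1 - i + 1 = n + 1 - 1 - i by omega]
      · simp
  have hmid : ∀ i, i + 1 < p → (q ^ p).coeff (i + 1) ∈ commSpan k A := by
    intro i hi
    have hmem : (derivative (q ^ p)).coeff i ∈ commSpan k A := by
      rw [hd, finsetSum_coeff]
      have h0 : ∑ j ∈ Finset.range p, (C a * q ^ (p - 1)).coeff i = 0 := by
        rw [Finset.sum_const, Finset.card_range, nsmul_eq_mul, natCast_eq_zero k p, zero_mul]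
      rw [← sub_zero (Finset.sum _ _), ← h0, ← Finset.sum_sub_distrib]
      refine Submodule.sum_mem _ fun j hj => ?_
      have hj := Finset.mem_range.1 hj
      have h := coeff_commutator_mem (k := k) (q ^ j) (C a * q ^ (p - 1 - j)) i
      rw [mul_assoc (C a), ← pow_add, show p - 1 - j + j = p - 1 by omega, coeff_sub,
        ← mul_assoc] at h
      exact h
    rw [coeff_derivative, show (i : A) + 1 = algebraMap k A ((i + 1 : ℕ) : k) by simp,
      ← Algebra.commutes, ← Algebra.smul_def] at hmem
    refine (Submodule.smul_mem_iff _ ?_).1 hmem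
    rw [Ne, CharP.cast_eq_zero_iff k p]
    exact fun h => absurd (Nat.le_of_dvd (by omega) h) (by omega)
  have hdeg : ∀ n, (q ^ n).natDegree ≤ n ∧ (q ^ n).coeff n = a ^ n := by
    intro n
    induction n with
    | zero => simp
    | succ n ih =>
      have hq1 : q.natDegree ≤ 1 := natDegree_linear_le
      refine ⟨by rw [pow_succ]; exact natDegree_mul_le.trans (add_le_add ih.1 hq1), ?_⟩
      rw [pow_succ, coeff_mul_add_eq_of_natDegree_le ih.1 hq1, ih.2, pow_succ]
      simp [q, coeff_C]
  have h0 : (q ^ p).coeff 0 = b ^ p := by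
    have h : ∀ n, (q ^ n).coeff 0 = b ^ n := fun n => by
      induction n with
      | zero => simp
      | succ n ih => rw [pow_succ, mul_coeff_zero, ih, pow_succ]; simp [q]
    exact h p
  let ev : A[X] →+* A := eval₂RingHom' (RingHom.id A) 1 fun x => Commute.one_right x
  have hev : ev (q ^ p) = (a + b) ^ p := by
    rw [map_pow]
    simp [ev, q, eval₂RingHom']
  have hsum : ev (q ^ p) = ∑ i ∈ Finset.range (p + 1), (q ^ p).coeff i := by
    show eval₂ (RingHom.id A) 1 (q ^ p) = _
    rw [eval₂_eq_sum_range' _ (Nat.lt_succ_of_le (hdeg p).1)]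
    simp
  rw [← hev, hsum, Finset.sum_range_succ, (hdeg p).2]
  obtain ⟨m, hm⟩ : ∃ m, p = m + 1 := ⟨p - 1, by have := hp.out.pos; omega⟩
  rw [Finset.range_eq_Ico, Finset.sum_eq_sum_Ico_succ_bot hp.out.pos, h0]
  rw [show b ^ p + ∑ i ∈ Finset.Ico (0 + 1) p, (q ^ p).coeff i + a ^ p - a ^ p - b ^ p =
    ∑ i ∈ Finset.Ico (0 + 1) p, (q ^ p).coeff i by abel]
  refine Submodule.sum_mem _ fun i hi => ?_
  obtain ⟨h1, h2⟩ := Finset.mem_Ico.1 hi
  obtain ⟨j, rfl⟩ : ∃ j, i = j + 1 := ⟨i - 1, by omega⟩
  exact hmid j h2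

lemma sum_pow_mem {a b : A} (h : a ^ p ∈ commSpan k A) (h' : b ^ p ∈ commSpan k A) :
    (a + b) ^ p ∈ commSpan k A := by
  have := add_mem (add_mem (add_pow_sub_mem p a b) h) h'
  convert this using 1
  abel

/-- The span of commutators is stable under the `p`-th power. -/
lemma pow_mem {x : A} (hx : x ∈ commSpan k A) : x ^ p ∈ commSpan k A := by
  induction hx using Submodule.span_induction with
  | mem x hx =>
    obtain ⟨u, v, rfl⟩ := hx
    have h1 := add_pow_sub_mem (k := k) p (u * v - v * u) (v * u)
    rw [sub_add_cancel] at h1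
    have h2 : (u * v) ^ p - (v * u) ^ p ∈ commSpan k A := by
      obtain ⟨m, hm⟩ : ∃ m, p = m + 1 := ⟨p - 1, by have := hp.out.pos; omega⟩
      rw [hm, pow_succ' (u * v), pow_succ (v * u)]
      have e : ∀ n, (v * u) ^ n * v = v * (u * v) ^ n := fun n => by
        induction n with
        | zero => simp
        | succ n ih => rw [pow_succ, pow_succ (u * v), ← mul_assoc v, ← ih]; simp only [mul_assoc]
      rw [mul_assoc u v, ← e, ← mul_assoc _ v u]
      exact commutator_mem _ _
    have := sub_mem h2 h1
    convert this using 1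
    abel
  | zero => rw [zero_pow hp.out.ne_zero]; exact zero_mem _
  | add x y _ _ hx hy => exact sum_pow_mem p hx hy
  | smul t x _ hx => rw [_root_.smul_pow]; exact Submodule.smul_mem _ _ hx

lemma pow_pow_mem {x : A} (hx : x ∈ commSpan k A) (n : ℕ) : x ^ p ^ n ∈ commSpan k A := by
  induction n with
  | zero => simpa using hx
  | succ n ih => rw [pow_succ p n, pow_mul]; exact pow_mem p ih

lemma add_pow_pow_sub_mem (a b : A) (n : ℕ) :
    (a + b) ^ p ^ n - a ^ p ^ n - b ^ p ^ n ∈ commSpan k A := by
  induction n with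
  | zero => simp
  | succ n ih =>
    set c := (a + b) ^ p ^ n - a ^ p ^ n - b ^ p ^ n with hc
    have h1 := add_pow_sub_mem (k := k) p (a ^ p ^ n + b ^ p ^ n) c
    have h2 := add_pow_sub_mem (k := k) p (a ^ p ^ n) (b ^ p ^ n)
    have := add_mem (add_mem h1 h2) (pow_mem p ih)
    rw [show a ^ p ^ n + b ^ p ^ n + c = (a + b) ^ p ^ n by rw [hc]; abel] at this
    simp only [pow_succ p n, pow_mul]
    convert this using 1
    abel

/-- The trace subspace. -/
def traceSpace : Submodule k A where
  carrier := {x | ∃ n, x ^ p ^ n ∈ commSpan k A}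
  add_mem' {x y} := by
    rintro ⟨m, hm⟩ ⟨n, hn⟩
    have lift : ∀ {z : A} {m N : ℕ}, m ≤ N → z ^ p ^ m ∈ commSpan k A → z ^ p ^ N ∈ commSpan k A :=
      fun {z m N} h hz => by
        rw [← Nat.add_sub_cancel' h, pow_add, pow_mul]; exact pow_pow_mem p hz _
    refine ⟨max m n, ?_⟩
    have := add_mem (add_mem (add_pow_pow_sub_mem (k := k) p x y (max m n))
      (lift (le_max_left m n) hm)) (lift (le_max_right m n) hn)
    convert this using 1
    abel
  zero_mem' := ⟨0, by simp⟩
  smul_mem' t x := by
    rintro ⟨n, hn⟩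
    exact ⟨n, by rw [_root_.smul_pow]; exact Submodule.smul_mem _ _ hn⟩

lemma mem_traceSpace {x : A} : x ∈ traceSpace (k := k) p ↔ ∃ n, x ^ p ^ n ∈ commSpan k A := Iff.rfl

lemma commSpan_le : commSpan k A ≤ traceSpace p := fun _ hx => ⟨0, by simpa using hx⟩

lemma mem_of_isNilpotent {x : A} (hx : IsNilpotent x) : x ∈ traceSpace (k := k) p := by
  obtain ⟨m, hm⟩ := hx
  exact ⟨m, by rw [pow_eq_zero_of_le (Nat.lt_pow_self hp.out.one_lt).le hm]; exact zero_mem _⟩

/-- The trace subspace descends along surjections with nilpotent kernel. -/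
lemma mem_traceSpace_iff_map {B : Type*} [Ring B] [Algebra k B] {f : A →ₐ[k] B}
    (hf : Function.Surjective f) (hker : ∀ x, f x = 0 → IsNilpotent x) (x : A) :
    x ∈ traceSpace (k := k) p ↔ f x ∈ traceSpace (k := k) p := by
  constructor
  · rintro ⟨n, hn⟩
    exact ⟨n, by rw [← map_pow]; exact map_commSpan f hn⟩
  · rintro ⟨n, hn⟩
    obtain ⟨c, hc, hfc⟩ := exists_of_commSpan hf hn
    have hmem : x ^ p ^ n ∈ traceSpace (k := k) p := by
      have := add_mem (commSpan_le p hc) (mem_of_isNilpotent (k := k) p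
        (hker (x ^ p ^ n - c) (by rw [map_sub, map_pow, hfc, sub_self])))
      rwa [add_sub_cancel] at this
    obtain ⟨m, hm⟩ := hmem
    exact ⟨n + m, by rwa [pow_add, pow_mul]⟩

end FA.BrauerModular
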